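import Fermat.Agent.S44.Low.Seams
import Fermat.Agent.S35.PMaps
import Fermat.Agent.SS.Model.AL

/-!
# S44: the concrete frame (helper25, deputy; definitions of helper29's #3821 (3)–(4))

`s44_frame P M hpM : s44_Frame P M` — the data on which all geometric cells of [LOW] agree:

* `A := s44f_A p`      a valuation subring of `ℚ̄` above `p` (`s44f_A_liesOver`);
* `ζ := s44f_zeta p`   a primitive `p`-th root of unity (`s44f_zeta_spec`);
* `as := s35p_P1J M p`, `bs := s35p_P2J M p` : `J₀(M p) → J₀(M)`, the push-forwards along the two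
  degeneracy maps `heckeAlphaBar`, `heckeBetaBar` (S35/PMaps: Galois- and Hecke-equivariant);
* `s44f_Rep p z f`     : `f ∈ F̄_N^×` represents `z ∈ J₀(N)`: `div f = p D`, `[D] = z`;
* `s44f_Int A b`       : all `q`-coefficients of `b ∈ F̄_N ⊆ ℚ̄((q))` lie in `A` (`w_∞(b) ≥ 0`, the
  Gauss valuation over `A`);
* `s44f_Depth A p c T z` : some representative `f` of `z` has `T f = g^p (1 + c b)`, `b` integral
  (`T = id` for `w_∞`, `T = W̄_p` = Atkin–Lehner for `w_0 = w_∞ ∘ W̄_p`; "depth `≥ v_A(c)`");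
* `D1inf z := ∃ c ≠ 0 in 𝔪_A, Depth c id z`,  `D10 z := ∃ c ≠ 0 in 𝔪_A, Depth c W̄ z`,
  `Split z := ∀ c ≠ 0, Depth c id z ∧ Depth c W̄ z`.
-/

set_option autoImplicit false

noncomputable section

namespace Fermat.Agent.S44

open ModularCurve AlgebraicCurve Fermat.Agent.JT3 Fermat.Agent.S35 Fermat.Agent.SS

/-- above every prime there is a valuation subring of `ℚ̄` (copy of `mzt_exists_place`) -/
theorem s44f_exists_place (ℓ : ℕ) (hℓ : ℓ.Prime) :
    ∃ A : ValuationSubring s44_Qb, A.LiesOverPrime ℓ := by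
  let Z : Subring s44_Qb := (algebraMap ℤ s44_Qb).range
  let l : Z := ⟨(ℓ : s44_Qb), ⟨(ℓ : ℤ), by simp⟩⟩
  have hne : Ideal.span ({l} : Set Z) ≠ ⊤ := by
    intro h
    rw [Ideal.span_singleton_eq_top] at h
    obtain ⟨⟨b, hb⟩, hbl⟩ := h.exists_right_inv
    obtain ⟨n, rfl⟩ := hb
    have h1 : ((ℓ : ℤ) * n : ℤ) = 1 := by
      have h2 : (algebraMap ℤ s44_Qb) ((ℓ : ℤ) * n) = (algebraMap ℤ s44_Qb) 1 := by
        rw [map_mul, map_one]
        have := congrArg Subtype.val hbl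
        simpa [l] using this
      exact (algebraMap ℤ s44_Qb).injective_int h2
    have h3 : (ℓ : ℤ) ∣ 1 := ⟨n, h1.symm⟩
    have h4 : ℓ ∣ 1 := by exact_mod_cast h3
    exact hℓ.one_lt.ne' (Nat.dvd_one.1 h4)
  obtain ⟨B, -, hB⟩ := Ideal.image_subset_nonunits_valuationSubring (Ideal.span ({l} : Set Z)) hne
  exact ⟨B, hB ⟨l, Ideal.subset_span rfl, rfl⟩⟩

/-- the chosen place of `ℚ̄` above `p` -/
def s44f_A (p : ℕ) (hp : p.Prime) : ValuationSubring s44_Qb := (s44f_exists_place p hp).choose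

theorem s44f_A_liesOver (p : ℕ) (hp : p.Prime) : (s44f_A p hp).LiesOverPrime p :=
  (s44f_exists_place p hp).choose_spec

theorem s44f_exists_zeta (p : ℕ) (hp : p.Prime) : ∃ ζ : s44_Qb, IsPrimitiveRoot ζ p := by
  haveI : NeZero (p : ℚ) := ⟨by exact_mod_cast hp.ne_zero⟩
  exact HasEnoughRootsOfUnity.exists_primitiveRoot s44_Qb p

/-- the chosen primitive `p`-th root of unity -/
def s44f_zeta (p : ℕ) (hp : p.Prime) : s44_Qb := (s44f_exists_zeta p hp).choose

theorem s44f_zeta_spec (p : ℕ) (hp : p.Prime) : IsPrimitiveRoot (s44f_zeta p hp) p :=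
  (s44f_exists_zeta p hp).choose_spec

section Depth

variable (N : ℕ)

/-- `f` represents `z`: `div f = p D` and `[D] = z`. -/
def s44f_Rep (p : ℕ) (z : JZero N) (f : modularFunctionFieldBar N) : Prop :=
  f ≠ 0 ∧ ∃ D : Divisor.degZero (K := AlgebraicClosure ℚ) (F := modularFunctionFieldBar N),
    Pic0.mk D = z ∧
    ∀ v : Place (AlgebraicClosure ℚ) (modularFunctionFieldBar N),
      (p : ℤ) * (D : Divisor (AlgebraicClosure ℚ) (modularFunctionFieldBar N)) v = v.ord f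

/-- all `q`-coefficients lie in `A`: `w_∞(b) ≥ 0` for the Gauss valuation over `A`. -/
def s44f_Int (A : ValuationSubring s44_Qb) (b : modularFunctionFieldBar N) : Prop :=
  ∀ n : ℤ, (b : LaurentSeries (AlgebraicClosure ℚ)).coeff n ∈ A

/-- depth `≥ v_A(c)` of `z` at the valuation `w_∞ ∘ T`. -/
def s44f_Depth (A : ValuationSubring s44_Qb) (p : ℕ) (c : s44_Qb)
    (T : modularFunctionFieldBar N →ₐ[AlgebraicClosure ℚ] modularFunctionFieldBar N)
    (z : JZero N) : Prop :=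
  ∃ f : modularFunctionFieldBar N, s44f_Rep N p z f ∧
    ∃ g b : modularFunctionFieldBar N, g ≠ 0 ∧ s44f_Int N A b ∧
      T f = g ^ p * (1 + algebraMap (AlgebraicClosure ℚ) (modularFunctionFieldBar N) c * b)

end Depth

/-- `p ≠ 0` as an instance -/
instance s44_neZero_p (P : FreyPackage) : NeZero P.p := ⟨P.hp0⟩

/-- **the frame.** -/
def s44_frame (P : FreyPackage) (M : ℕ) [NeZero M] [NeZero (M * P.p)] (hpM : ¬ P.p ∣ M) :
    s44_Frame P M :=
  { A := s44f_A P.p P.pp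
    ζ := s44f_zeta P.p P.pp
    as := s35p_P1J M P.p
    bs := s35p_P2J M P.p
    D1inf := fun z => ∃ c : s44_Qb, c ≠ 0 ∧ c ∈ (s44f_A P.p P.pp).nonunits ∧
      s44f_Depth (M * P.p) (s44f_A P.p P.pp) P.p c (AlgHom.id _ _) z
    D10 := fun z => ∃ c : s44_Qb, c ≠ 0 ∧ c ∈ (s44f_A P.p P.pp).nonunits ∧
      s44f_Depth (M * P.p) (s44f_A P.p P.pp) P.p c (ssm_al_Wbar M P.p P.pp hpM) z
    Split := fun z => ∀ c : s44_Qb, c ≠ 0 →
      s44f_Depth (M * P.p) (s44f_A P.p P.pp) P.p c (AlgHom.id _ _) z ∧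
      s44f_Depth (M * P.p) (s44f_A P.p P.pp) P.p c (ssm_al_Wbar M P.p P.pp hpM) z }

section API

variable (P : FreyPackage) (M : ℕ) [NeZero M] [NeZero (M * P.p)] (hpM : ¬ P.p ∣ M)

theorem s44_frame_A : (s44_frame P M hpM).A = s44f_A P.p P.pp := rfl

theorem s44_frame_zeta : (s44_frame P M hpM).ζ = s44f_zeta P.p P.pp := rfl

theorem s44_frame_A_liesOver : (s44_frame P M hpM).A.LiesOverPrime P.p := s44f_A_liesOver P.p P.pp

theorem s44_frame_zeta_spec : IsPrimitiveRoot (s44_frame P M hpM).ζ P.p := s44f_zeta_spec P.p P.pp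

theorem s44_frame_as : (s44_frame P M hpM).as = s35p_P1J M P.p := rfl

theorem s44_frame_bs : (s44_frame P M hpM).bs = s35p_P2J M P.p := rfl

theorem s44_frame_D1inf (z : JZero (M * P.p)) :
    (s44_frame P M hpM).D1inf z ↔ ∃ c : s44_Qb, c ≠ 0 ∧ c ∈ (s44f_A P.p P.pp).nonunits ∧
      s44f_Depth (M * P.p) (s44f_A P.p P.pp) P.p c (AlgHom.id _ _) z := Iff.rfl

theorem s44_frame_D10 (z : JZero (M * P.p)) :
    (s44_frame P M hpM).D10 z ↔ ∃ c : s44_Qb, c ≠ 0 ∧ c ∈ (s44f_A P.p P.pp).nonunits ∧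
      s44f_Depth (M * P.p) (s44f_A P.p P.pp) P.p c (ssm_al_Wbar M P.p P.pp hpM) z := Iff.rfl

theorem s44_frame_Split (z : JZero (M * P.p)) :
    (s44_frame P M hpM).Split z ↔ ∀ c : s44_Qb, c ≠ 0 →
      s44f_Depth (M * P.p) (s44f_A P.p P.pp) P.p c (AlgHom.id _ _) z ∧
      s44f_Depth (M * P.p) (s44f_A P.p P.pp) P.p c (ssm_al_Wbar M P.p P.pp hpM) z := Iff.rfl

end API

end Fermat.Agent.S44
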