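import Fermat.Agent.S44.Frame
import Fermat.Agent.JT3.Bridge.GaussVal

/-!
# S44: the concrete frame, version 2 (helper29, architect ruling after helper26's #3850/#3854)

`Frame.lean`'s `s44f_Int` ("all `q`-coefficients in `A`") is strictly smaller than the Gauss
valuation ring of `F̄_N` (e.g. `1 / (π + 1/j)` has coefficients `π ^ (-k-1)`), and is not a
valuation ring.  Version 2 replaces it by Gauss-boundedness over `A`, in the vocabulary of
`JT3/Bridge/GaussVal`: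

* `s44f_Int2 N A b := gq_IsBdd ↥A ℚ̄ (b : ℚ̄((q)))`: `b = z₁ / z₂` with `z₁ z₂ ∈ A((q))`,
  `z₂ ≢ 0 mod 𝔪_A` (`w_∞(b) ≥ 0` for the Gauss valuation over `A`).  Both directions to number
  fields are in `SS/Model/GaussBC.lean` (`ssm_gb_isBdd`, `ssm_gb_isBdd_iff`).
* `s44f_Depth2`, `s44_frame2`: as in `Frame.lean`, with `s44f_Int2`.

`s44f_A`, `s44f_zeta`, `s44f_Rep` are those of `Frame.lean`.
**Every geometric cell of S44 is stated against `s44_frame2 P M hpM`.**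
-/

set_option autoImplicit false

noncomputable section

namespace Fermat.Agent.S44

open ModularCurve AlgebraicCurve Fermat.Agent.JT3 Fermat.Agent.S35 Fermat.Agent.SS

section Depth

variable (N : ℕ)

/-- `w_∞(b) ≥ 0` for the Gauss valuation over `A`: `b` is a quotient of two series over `A`, the
denominator with nonzero reduction. -/
def s44f_Int2 (A : ValuationSubring s44_Qb) (b : modularFunctionFieldBar N) : Prop :=
  gq_IsBdd ↥A s44_Qb (b : LaurentSeries s44_Qb)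

/-- depth `≥ v_A(c)` of `z` at the valuation `w_∞ ∘ T`. -/
def s44f_Depth2 (A : ValuationSubring s44_Qb) (p : ℕ) (c : s44_Qb)
    (T : modularFunctionFieldBar N →ₐ[AlgebraicClosure ℚ] modularFunctionFieldBar N)
    (z : JZero N) : Prop :=
  ∃ f : modularFunctionFieldBar N, s44f_Rep N p z f ∧
    ∃ g b : modularFunctionFieldBar N, g ≠ 0 ∧ s44f_Int2 N A b ∧
      T f = g ^ p * (1 + algebraMap (AlgebraicClosure ℚ) (modularFunctionFieldBar N) c * b)

theorem s44f_int2_iff (A : ValuationSubring s44_Qb) (b : modularFunctionFieldBar N) :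
    s44f_Int2 N A b ↔ gq_IsBdd ↥A s44_Qb (b : LaurentSeries s44_Qb) := Iff.rfl

end Depth

/-- **the frame, version 2.** -/
def s44_frame2 (P : FreyPackage) (M : ℕ) [NeZero M] [NeZero (M * P.p)] (hpM : ¬ P.p ∣ M) :
    s44_Frame P M :=
  { A := s44f_A P.p P.pp
    ζ := s44f_zeta P.p P.pp
    as := s35p_P1J M P.p
    bs := s35p_P2J M P.p
    D1inf := fun z => ∃ c : s44_Qb, c ≠ 0 ∧ c ∈ (s44f_A P.p P.pp).nonunits ∧
      s44f_Depth2 (M * P.p) (s44f_A P.p P.pp) P.p c (AlgHom.id _ _) z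
    D10 := fun z => ∃ c : s44_Qb, c ≠ 0 ∧ c ∈ (s44f_A P.p P.pp).nonunits ∧
      s44f_Depth2 (M * P.p) (s44f_A P.p P.pp) P.p c (ssm_al_Wbar M P.p P.pp hpM) z
    Split := fun z => ∀ c : s44_Qb, c ≠ 0 →
      s44f_Depth2 (M * P.p) (s44f_A P.p P.pp) P.p c (AlgHom.id _ _) z ∧
      s44f_Depth2 (M * P.p) (s44f_A P.p P.pp) P.p c (ssm_al_Wbar M P.p P.pp hpM) z }

section API

variable (P : FreyPackage) (M : ℕ) [NeZero M] [NeZero (M * P.p)] (hpM : ¬ P.p ∣ M)

theorem s44_frame2_A : (s44_frame2 P M hpM).A = s44f_A P.p P.pp := rfl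

theorem s44_frame2_zeta : (s44_frame2 P M hpM).ζ = s44f_zeta P.p P.pp := rfl

theorem s44_frame2_A_liesOver : (s44_frame2 P M hpM).A.LiesOverPrime P.p :=
  s44f_A_liesOver P.p P.pp

theorem s44_frame2_zeta_spec : IsPrimitiveRoot (s44_frame2 P M hpM).ζ P.p :=
  s44f_zeta_spec P.p P.pp

theorem s44_frame2_as : (s44_frame2 P M hpM).as = s35p_P1J M P.p := rfl

theorem s44_frame2_bs : (s44_frame2 P M hpM).bs = s35p_P2J M P.p := rfl

theorem s44_frame2_D1inf (z : JZero (M * P.p)) :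
    (s44_frame2 P M hpM).D1inf z ↔ ∃ c : s44_Qb, c ≠ 0 ∧ c ∈ (s44f_A P.p P.pp).nonunits ∧
      s44f_Depth2 (M * P.p) (s44f_A P.p P.pp) P.p c (AlgHom.id _ _) z := Iff.rfl

theorem s44_frame2_D10 (z : JZero (M * P.p)) :
    (s44_frame2 P M hpM).D10 z ↔ ∃ c : s44_Qb, c ≠ 0 ∧ c ∈ (s44f_A P.p P.pp).nonunits ∧
      s44f_Depth2 (M * P.p) (s44f_A P.p P.pp) P.p c (ssm_al_Wbar M P.p P.pp hpM) z := Iff.rfl

theorem s44_frame2_Split (z : JZero (M * P.p)) :
    (s44_frame2 P M hpM).Split z ↔ ∀ c : s44_Qb, c ≠ 0 →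
      s44f_Depth2 (M * P.p) (s44f_A P.p P.pp) P.p c (AlgHom.id _ _) z ∧
      s44f_Depth2 (M * P.p) (s44f_A P.p P.pp) P.p c (ssm_al_Wbar M P.p P.pp hpM) z := Iff.rfl

/-- the two frames have the same `A`, `ζ`, `Γ`, `as`, `bs`. -/
theorem s44_frame2_Γ : (s44_frame2 P M hpM).Γ = (s44_frame P M hpM).Γ := rfl

end API

end Fermat.Agent.S44
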