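import Fermat.Statements.S44
import Fermat.Prelude.Def_ModularCurve_HeckeModule

/-!
# S44 (Mazur–Ribet at `p`, Frey form): top-level seams (helper25)

`s44_main : s44_BLR_stmt → s44_Low_stmt → (the frozen statement S44)`.

* `s44_Tors P` : the `G_ℚ`-module `E[p]`, `E` the Frey curve, `p = P.p`;
* `s44_IsCopy P N W ι` : `ι : E[p] → J₀(N)` is an injective `G_ℚ`-equivariant homomorphism and
  `T_ℓ = a_ℓ(W)` on its image for the primes `ℓ ∤ N p` of good reduction of the integral model `W`;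
* `s44_BLR_stmt` **[BLR]**: residual modularity of level `N` + irreducibility ⟹ such a copy exists;
* `s44_Low_stmt` **[LOW]**: a copy of `E[p]` in `J₀(M p)` (`p ∤ M`, `M p` a conductor level)
  ⟹ residual modularity of level `M`.
-/

set_option autoImplicit false

namespace Fermat.Agent.S44

open WeierstrassCurve WeierstrassCurve.Affine WeierstrassCurve.Affine.Point
open scoped WeierstrassCurve.Affine

/-- `ℚ̄` -/
abbrev s44_Qb : Type := AlgebraicClosure ℚ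

/-- `G_ℚ` -/
abbrev s44_G : Type := s44_Qb ≃ₐ[ℚ] s44_Qb

/-- the `G_ℚ`-module `E[p]` of the Frey curve -/
abbrev s44_Tors (P : FreyPackage) : Type :=
  ↥(Submodule.torsionBy ℤ ((P.freyCurve)⁄s44_Qb).Point (P.p : ℤ))

/-- `ι` embeds `E[p]` into `J₀(N)`, `G_ℚ`-equivariantly, with `T_ℓ = a_ℓ(W)` on the image. -/
structure s44_IsCopy (P : FreyPackage) (N : ℕ) [NeZero N] (W : WeierstrassCurve ℤ)
    (ι : s44_Tors P →+ ModularCurve.JZero N) : Prop where
  model : W.IsIntegralModelOf P.freyCurve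
  inj : Function.Injective ι
  equiv : ∀ (σ : s44_G) (x : s44_Tors P), ι (σ • x) = σ • ι x
  eigen : ∀ ℓ : Nat.Primes, W.IsGoodPrimeFor ℓ → ¬ (ℓ : ℕ) ∣ N → (ℓ : ℕ) ≠ P.p →
    ∀ x : s44_Tors P, ModularCurve.heckeOperatorBar N ℓ (ι x) = (W.apOfModel ℓ) • ι x

/-- **[BLR]** -/
def s44_BLR_stmt : Prop :=
  ∀ (P : FreyPackage) (N : ℕ) [NeZero N],
    GaloisRepIsIrreducible (K := AlgebraicClosure ℚ) ℚ P.freyCurve P.p →
    P.ModularRepOfLevel N →
    ∃ (W : WeierstrassCurve ℤ) (ι : s44_Tors P →+ ModularCurve.JZero N), s44_IsCopy P N W ι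

/-- **[LOW]** -/
def s44_Low_stmt : Prop :=
  ∀ (P : FreyPackage) (M : ℕ) [NeZero M] [NeZero (M * P.p)], ¬ P.p ∣ M →
    P.IsConductorLevel (M * P.p) →
    GaloisRepIsIrreducible (K := AlgebraicClosure ℚ) ℚ P.freyCurve P.p →
    ∀ (W : WeierstrassCurve ℤ) (ι : s44_Tors P →+ ModularCurve.JZero (M * P.p)),
      s44_IsCopy P (M * P.p) W ι → P.ModularRepOfLevel M

/-- **S44 from [BLR] and [LOW].** -/
theorem s44_main (hB : s44_BLR_stmt) (hL : s44_Low_stmt)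
    (P : FreyPackage) {N : ℕ} (hcond : P.IsConductorLevel N) (hpN : P.p ∣ N)
    (hirr : GaloisRepIsIrreducible (K := AlgebraicClosure ℚ) ℚ P.freyCurve P.p)
    (hmod : P.ModularRepOfLevel N) :
    ∃ M : ℕ, M ∣ N ∧ ¬ P.p ∣ M ∧ P.ModularRepOfLevel M := by
  obtain ⟨M, rfl⟩ := hpN
  have hN0 : P.p * M ≠ 0 := hcond.pos.ne'
  have hM0 : M ≠ 0 := fun h => hN0 (by rw [h, mul_zero])
  have hpM : ¬ P.p ∣ M := by
    rintro ⟨k, rfl⟩
    exact hcond.sq_not_dvd P.pp ⟨k, by ring⟩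
  have e : P.p * M = M * P.p := mul_comm _ _
  rw [e] at hcond hmod
  haveI : NeZero M := ⟨hM0⟩
  haveI : NeZero (M * P.p) := ⟨by rw [← e]; exact hN0⟩
  obtain ⟨W, ι, hι⟩ := hB P (M * P.p) hirr hmod
  exact ⟨M, ⟨P.p, (mul_comm _ _)⟩, hpM, hL P M hpM hcond hirr W ι hι⟩

end Fermat.Agent.S44
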