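import Fermat.Agent.S44.Frame

/-!
# S44: small lemmas about the frame that no cell owns (helper25)

* `s44f_p_pow_div_mem` : a valuation subring `A` of `ℚ̄` above `p` has "rank one" in the form used
  by [DICH]: for every `c ≠ 0` there is `N` with `p ^ N / c ∈ A`; `s44f_pow_div_mem`: the same with
  any `π` such that `π ^ e / p ∈ A`.
* `s44f_rep_exists` : a class killed by `p` has a representing function;
* `s44f_depth_mono` : depth is monotone (`c' / c ∈ A`).
-/

set_option autoImplicit false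

noncomputable section

namespace Fermat.Agent.S44

open ModularCurve AlgebraicCurve

section Arch

variable (A : ValuationSubring s44_Qb)

theorem s44f_integral_mem {x : s44_Qb} (hx : IsIntegral ℤ x) : x ∈ A := by
  have h1 : IsIntegral A x := hx.tower_top
  obtain ⟨y, hy⟩ := (IsIntegrallyClosed.isIntegral_iff (R := A) (K := s44_Qb)).1 h1
  rw [← hy]
  exact y.2

variable {A} {p : ℕ} (hp : p.Prime) (hA : A.LiesOverPrime p)

include hp hA in
/-- integers prime to `p` are units of `A` -/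
theorem s44f_val_int_eq_one {m : ℤ} (hm : ¬ (p : ℤ) ∣ m) : A.valuation (m : s44_Qb) = 1 := by
  have hle : A.valuation (m : s44_Qb) ≤ 1 := (A.valuation_le_one_iff _).2 (intCast_mem A m)
  refine le_antisymm hle (not_lt.1 fun hlt => ?_)
  have hpp : Prime (p : ℤ) := Nat.prime_iff_prime_int.1 hp
  have hcop : IsCoprime m (p : ℤ) := (isCoprime_comm).1 ((Prime.coprime_iff_not_dvd hpp).2 hm)
  obtain ⟨x, y, hxy⟩ := hcop
  have h1 : ((x : s44_Qb) * m + y * p) = 1 := by exact_mod_cast congrArg (Int.cast (R := s44_Qb)) hxy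
  have hx : A.valuation (x : s44_Qb) ≤ 1 := (A.valuation_le_one_iff _).2 (intCast_mem A x)
  have hy : A.valuation (y : s44_Qb) ≤ 1 := (A.valuation_le_one_iff _).2 (intCast_mem A y)
  have hpv : A.valuation (p : s44_Qb) < 1 := A.mem_nonunits_iff.1 hA
  have h2 : A.valuation ((x : s44_Qb) * m + y * p) < 1 := by
    refine lt_of_le_of_lt (A.valuation.map_add _ _) (max_lt ?_ ?_)
    · rw [map_mul]
      exact lt_of_le_of_lt (mul_le_mul_of_nonneg_right hx zero_le') (by rwa [one_mul])
    · rw [map_mul]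
      exact lt_of_le_of_lt (mul_le_mul_of_nonneg_right hy zero_le') (by rwa [one_mul])
  rw [h1, map_one] at h2
  exact lt_irrefl _ h2

include hp hA in
/-- **rank one**: for every `c ≠ 0` some `p ^ N / c` lies in `A`. -/
theorem s44f_p_pow_div_mem {c : s44_Qb} (hc : c ≠ 0) : ∃ N : ℕ, (p : s44_Qb) ^ N / c ∈ A := by
  have halg : IsAlgebraic ℤ c⁻¹ :=
    (IsFractionRing.isAlgebraic_iff ℤ ℚ s44_Qb).2 ((AlgebraicClosure.isAlgebraic ℚ).isAlgebraic _)
  obtain ⟨y, hy0, hint⟩ := halg.exists_integral_multiple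
  have hmem : y • c⁻¹ ∈ A := s44f_integral_mem A hint
  have hpp : Prime (p : ℤ) := Nat.prime_iff_prime_int.1 hp
  have hfin : FiniteMultiplicity (p : ℤ) y :=
    Int.finiteMultiplicity_iff.2 ⟨by
      rw [Int.natAbs_natCast]; exact hp.one_lt.ne', hy0⟩
  obtain ⟨m, hym, hm⟩ := hfin.exists_eq_pow_mul_and_not_dvd
  refine ⟨multiplicity (p : ℤ) y, ?_⟩
  rw [← A.valuation_le_one_iff] at hmem ⊢
  have hv1 := s44f_val_int_eq_one hp hA hm
  have e : y • c⁻¹ = ((p : s44_Qb) ^ multiplicity (p : ℤ) y / c) * (m : s44_Qb) := by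
    rw [zsmul_eq_mul]
    conv_lhs => rw [hym]
    push_cast
    ring
  rw [e, map_mul, hv1, mul_one] at hmem
  exact hmem

include hp hA in
/-- the same with any `π` such that `π ^ e / p ∈ A` (e.g. a uniformiser of `A ∩ L`, `L` a number
field). -/
theorem s44f_pow_div_mem {c π : s44_Qb} (hc : c ≠ 0) {e : ℕ} (hπ : π ^ e / (p : s44_Qb) ∈ A) :
    ∃ n : ℕ, π ^ n / c ∈ A := by
  obtain ⟨N, hN⟩ := s44f_p_pow_div_mem hp hA hc
  refine ⟨e * N, ?_⟩
  have hp0 : (p : s44_Qb) ≠ 0 := by exact_mod_cast hp.ne_zero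
  have e1 : π ^ (e * N) / c = (π ^ e / (p : s44_Qb)) ^ N * ((p : s44_Qb) ^ N / c) := by
    rw [pow_mul, div_pow]
    field_simp
  rw [e1]
  exact A.mul_mem _ _ (pow_mem hπ N) hN

end Arch

section Rep

variable (N : ℕ)

/-- a class killed by `p` has a representing function. -/
theorem s44f_rep_exists {p : ℕ} (z : JZero N) (hz : p • z = 0) :
    ∃ f : modularFunctionFieldBar N, s44f_Rep N p z f := by
  obtain ⟨D, rfl⟩ := Pic0.mk_surjective z
  obtain ⟨f, hf0, hf⟩ := Fermat.Agent.S35.s35p_isPrincipal_of_nsmul_mk hz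
  refine ⟨f, hf0, D, rfl, fun v => ?_⟩
  rw [← hf v]
  simp

/-- depth is monotone: if `c' / c ∈ A` (i.e. `v_A(c') ≥ v_A(c)`) then depth `≥ v_A(c')` implies
depth `≥ v_A(c)`. -/
theorem s44f_depth_mono (A : ValuationSubring s44_Qb) (p : ℕ) {c c' : s44_Qb} (hc : c ≠ 0)
    (h : c' / c ∈ A)
    (T : modularFunctionFieldBar N →ₐ[AlgebraicClosure ℚ] modularFunctionFieldBar N)
    (z : JZero N) (hd : s44f_Depth N A p c' T z) : s44f_Depth N A p c T z := by
  obtain ⟨f, hf, g, b, hg, hb, e⟩ := hd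
  refine ⟨f, hf, g, algebraMap (AlgebraicClosure ℚ) (modularFunctionFieldBar N) (c' / c) * b, hg,
    ?_, ?_⟩
  · intro n
    have : ((algebraMap (AlgebraicClosure ℚ) (modularFunctionFieldBar N) (c' / c) * b :
        modularFunctionFieldBar N) : LaurentSeries (AlgebraicClosure ℚ)).coeff n =
        (c' / c) * (b : LaurentSeries (AlgebraicClosure ℚ)).coeff n := by
      have h0 : ((algebraMap (AlgebraicClosure ℚ) (modularFunctionFieldBar N) (c' / c) :
          modularFunctionFieldBar N) : LaurentSeries (AlgebraicClosure ℚ)) =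
          algebraMap (AlgebraicClosure ℚ) (LaurentSeries (AlgebraicClosure ℚ)) (c' / c) := rfl
      rw [MulMemClass.coe_mul, h0, algebraMap_laurentSeries_eq_single, ← HahnSeries.C_apply,
        HahnSeries.C_mul_eq_smul, HahnSeries.coeff_smul, smul_eq_mul]
    rw [this]
    exact A.mul_mem _ _ h (hb n)
  · rw [e, ← mul_assoc, ← map_mul, mul_div_cancel₀ _ hc]

end Rep

end Fermat.Agent.S44
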