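/-
S44: the top-level wiring (helper25, deputy).  `Fermat/Agent/S44.lean` is
`result := s44_wiring hE hDich hTor hCells` once the four open cells are closed.
-/
import Fermat.Agent.S44.Seams
import Fermat.Agent.S44.LocP.Main
import Fermat.Agent.S44.ChiRam.Frame2
import Fermat.Agent.S44.PsiEig.Main
import Fermat.Agent.S44.Old0.Frame2
import Fermat.Agent.S44.WJ.Main
import Fermat.Agent.S44.BLR.MainOf

set_option autoImplicit false

namespace Fermat.Agent.S44

open WeierstrassCurve WeierstrassCurve.Affine WeierstrassCurve.Affine.Point ModularCurve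

/-- **S44 from the four cells that are still open** (`hE` = [B] E-side, helper19; `hDich` = [D2],
helper26; `hTor` = [G3], helper10; `hCells` = the sub-cells of [BIG]: [H2] + [E2] + [E3] + [C2]);
all other cells ([A], [CHI-RAM], [PSI-EIG], [OLD0], [W-J], [EIS], TOP) are plugged in. -/
theorem s44_wiring
    (hE : s44b_ESide_stmt)
    (hDich : ∀ (P : FreyPackage) (M : ℕ) [NeZero M] [NeZero (M * P.p)] (hpM : ¬ P.p ∣ M),
      s44_Dich_stmt (s44_frame2 P M hpM))
    (hTor : ∀ (P : FreyPackage) (M : ℕ) [NeZero M] [NeZero (M * P.p)] (hpM : ¬ P.p ∣ M),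
      s44_Tor_stmt (s44_frame2 P M hpM))
    (hCells : ∀ (P : FreyPackage) (M : ℕ) [NeZero M] [NeZero (M * P.p)] (hpM : ¬ P.p ∣ M),
      P.IsConductorLevel (M * P.p) →
      GaloisRepIsIrreducible (K := AlgebraicClosure ℚ) ℚ P.freyCurve P.p →
      ∃ (Sg : Type) (S : Finset ℕ) (k : Sg → ZMod P.p)
        (ν : JZero (M * P.p) → Sg → ZMod P.p)
        (B : Nat.Primes → (Sg → ZMod P.p) →+ (Sg → ZMod P.p)),
        s44bg_Cells (s44_frame2 P M hpM) S k ν B)
    (P : FreyPackage) {N : ℕ} (hcond : P.IsConductorLevel N) (hpN : P.p ∣ N)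
    (hirr : GaloisRepIsIrreducible (K := AlgebraicClosure ℚ) ℚ P.freyCurve P.p)
    (hmod : P.ModularRepOfLevel N) :
    ∃ M : ℕ, M ∣ N ∧ ¬ P.p ∣ M ∧ P.ModularRepOfLevel M := by
  refine s44_main (s44b_blr_of hE) (s44_low_of ?_) P hcond hpN hirr hmod
  intro P M _ _ hpM hcond hirr
  obtain ⟨Sg, S, k, ν, B, hC⟩ := hCells P M hpM hcond hirr
  exact ⟨s44_frame2 P M hpM,
    { locFrey := s44a_locFrey_of_cond _ (s44_frame2_A_liesOver P M hpM)
        (s44_frame2_zeta_spec P M hpM) hcond
      chiRam := s44c_chiRam_frame2 P M hpM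
      psiEig := s44pe_psiEig P M hpM
      dich := hDich P M hpM
      tor := hTor P M hpM
      old0 := s44c_old0_frame2 P M hpM
      big := s44w_big P M hpM hirr hC }⟩

end Fermat.Agent.S44
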