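/-
S44: the top-level wiring, third state (helper25, deputy): [B] (`s44b_blr`), [D2] (`s44dq_dich`) and
[G3] (`s44t_tor`) are closed and plugged in.  `Fermat/Agent/S44.lean` is
`result := s44_wiring3 hCells` once the sub-cells of [BIG] ([H2], [E2], [E3]) are closed.
-/
import Fermat.Agent.S44.Wiring2
import Fermat.Agent.S44.Tor.Main

set_option autoImplicit false

namespace Fermat.Agent.S44

open WeierstrassCurve WeierstrassCurve.Affine WeierstrassCurve.Affine.Point ModularCurve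

/-- **S44 from the sub-cells of [BIG]** ([H2] mono, [E2] `ν_add` + `δ`, [E3] heckeRes + B_eis +
`δ.hecke`, `k_ne`). -/
theorem s44_wiring3
    (hCells : ∀ (P : FreyPackage) (M : ℕ) [NeZero M] [NeZero (M * P.p)] (hpM : ¬ P.p ∣ M),
      P.IsConductorLevel (M * P.p) →
      GaloisRepIsIrreducible (K := AlgebraicClosure ℚ) ℚ P.freyCurve P.p →
      ∃ (Sg : Type) (S : Finset ℕ) (k : Sg → ZMod P.p)
        (ν : JZero (M * P.p) → Sg → ZMod P.p)
        (B : Nat.Primes → (Sg → ZMod P.p) →+ (Sg → ZMod P.p)),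
        s44bg_Cells (s44_frame2 P M hpM) S k ν B)
    (P : FreyPackage) {N : ℕ} (hcond : P.IsConductorLevel N) (hpN : P.p ∣ N)
    (hirr : GaloisRepIsIrreducible (K := AlgebraicClosure ℚ) ℚ P.freyCurve P.p)
    (hmod : P.ModularRepOfLevel N) :
    ∃ M : ℕ, M ∣ N ∧ ¬ P.p ∣ M ∧ P.ModularRepOfLevel M :=
  s44_wiring2 (fun P M _ _ hpM => s44t_tor P M hpM) hCells P hcond hpN hirr hmod

end Fermat.Agent.S44
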